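import Mathlib
import Fermat.Prelude.Def_AlgebraicCurve_DivisorClassGroup
import Fermat.Agent.MUL.F3.I2.Kappa.Ratio
import Fermat.Agent.MUL.Orig.F3.I2.LocalOrders
import Fermat.Agent.MUL.F3.I2.Kappa.Theta
import Fermat.Agent.MUL.F3.I2.Char
import Fermat.Agent.MUL.F3.DictC.EmbF

section MergeWrap_F3_TorsFin_PlaceOfVal -- from F3/TorsFin/PlaceOfVal.lean

set_option autoImplicit false

/-!
# (K2) TorsionFinite, piece TF-A: an integer valued order function is a multiple of a place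

`F / K` fields.  An *order function* is a map `ν : F → ℤ` with `ν (x y) = ν x + ν y`,
`ν (x + y) ≥ min (ν x) (ν y)` (for nonzero arguments) and `ν = 0` on `Kˣ`.
If `ν` is not trivial, then `{ν ≥ 0}` is the valuation ring of a place `v` of `F / K` (in the
sense of the Prelude) and `ν f = v.ord f * ν π` for a uniformizer `π`.  Consequently:
if `n ∣ v.ord f` for every place `v`, then `n ∣ ν f`.
-/

noncomputable section

namespace Fermat.Agent.F3TF

open AlgebraicCurve

/-- An integer valued order function on `F`, trivial on the constants `K`. -/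
structure IsOrdFun (K : Type*) {F : Type*} [Field K] [Field F] [Algebra K F] (ν : F → ℤ) :
    Prop where
  map_mul : ∀ x y : F, x ≠ 0 → y ≠ 0 → ν (x * y) = ν x + ν y
  map_add : ∀ x y : F, x ≠ 0 → y ≠ 0 → x + y ≠ 0 → min (ν x) (ν y) ≤ ν (x + y)
  map_const : ∀ a : K, a ≠ 0 → ν (algebraMap K F a) = 0

namespace IsOrdFun

variable {K F : Type*} [Field K] [Field F] [Algebra K F] {ν : F → ℤ} (hν : IsOrdFun K ν)
include hν

theorem map_one : ν 1 = 0 := by
  have := hν.map_const 1 one_ne_zero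
  rwa [_root_.map_one] at this

theorem map_neg_one : ν (-1) = 0 := by
  have := hν.map_const (-1) (neg_ne_zero.mpr one_ne_zero)
  rwa [_root_.map_neg, _root_.map_one] at this

theorem map_neg (x : F) (hx : x ≠ 0) : ν (-x) = ν x := by
  have := hν.map_mul (-1) x (neg_ne_zero.mpr one_ne_zero) hx
  rw [neg_one_mul, hν.map_neg_one, zero_add] at this
  exact this

theorem map_inv (x : F) (hx : x ≠ 0) : ν x⁻¹ = -ν x := by
  have := hν.map_mul x x⁻¹ hx (inv_ne_zero hx)
  rw [mul_inv_cancel₀ hx, hν.map_one] at this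
  omega

theorem map_div (x y : F) (hx : x ≠ 0) (hy : y ≠ 0) : ν (x / y) = ν x - ν y := by
  rw [div_eq_mul_inv, hν.map_mul x y⁻¹ hx (inv_ne_zero hy), hν.map_inv y hy]
  ring

theorem map_pow (x : F) (hx : x ≠ 0) (k : ℕ) : ν (x ^ k) = k * ν x := by
  induction k with
  | zero => simp [hν.map_one]
  | succ k ih =>
    rw [pow_succ, hν.map_mul _ _ (pow_ne_zero k hx) hx, ih]
    push_cast
    ring

theorem map_zpow (x : F) (hx : x ≠ 0) (k : ℤ) : ν (x ^ k) = k * ν x := by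
  cases k with
  | ofNat k =>
    simp only [Int.ofNat_eq_natCast, zpow_natCast]
    exact hν.map_pow x hx k
  | negSucc k =>
    rw [zpow_negSucc, hν.map_inv _ (pow_ne_zero _ hx), hν.map_pow x hx]
    rw [Int.negSucc_eq]
    push_cast
    ring

/-- The valuation ring `{x | x = 0 ∨ 0 ≤ ν x}`. -/
def valuationSubring : ValuationSubring F where
  carrier := {x | x = 0 ∨ 0 ≤ ν x}
  zero_mem' := Or.inl rfl
  one_mem' := Or.inr (by rw [hν.map_one])
  add_mem' := by
    rintro x y hx hy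
    by_cases hx0 : x = 0
    · subst hx0; simpa using hy
    by_cases hy0 : y = 0
    · subst hy0; simpa using hx
    by_cases hxy : x + y = 0
    · exact Or.inl hxy
    right
    have h1 : 0 ≤ ν x := hx.resolve_left hx0
    have h2 : 0 ≤ ν y := hy.resolve_left hy0
    exact le_trans (le_min h1 h2) (hν.map_add x y hx0 hy0 hxy)
  neg_mem' := by
    rintro x hx
    by_cases hx0 : x = 0
    · subst hx0; left; simp
    right
    rw [hν.map_neg x hx0]
    exact hx.resolve_left hx0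
  mul_mem' := by
    rintro x y hx hy
    by_cases hx0 : x = 0
    · subst hx0; left; simp
    by_cases hy0 : y = 0
    · subst hy0; left; simp
    right
    rw [hν.map_mul x y hx0 hy0]
    have h1 : 0 ≤ ν x := hx.resolve_left hx0
    have h2 : 0 ≤ ν y := hy.resolve_left hy0
    omega
  mem_or_inv_mem' := by
    intro x
    by_cases hx0 : x = 0
    · left; left; exact hx0
    by_cases h : 0 ≤ ν x
    · left; right; exact h
    · right; right
      rw [hν.map_inv x hx0]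
      omega

theorem mem_valuationSubring {x : F} : x ∈ hν.valuationSubring ↔ x = 0 ∨ 0 ≤ ν x := Iff.rfl

theorem mem_valuationSubring_of_ne_zero {x : F} (hx : x ≠ 0) :
    x ∈ hν.valuationSubring ↔ 0 ≤ ν x :=
  ⟨fun h => h.resolve_left hx, fun h => Or.inr h⟩

/-- Every ideal of the valuation ring is principal: it is generated by an element of minimal
value. -/
theorem isPrincipalIdealRing : IsPrincipalIdealRing hν.valuationSubring := by
  classical
  refine ⟨fun I => ?_⟩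
  by_cases hI : I = ⊥
  · rw [hI]; exact bot_isPrincipal
  obtain ⟨x, hxI, hx0⟩ := Submodule.exists_mem_ne_zero_of_ne_bot hI
  have hx0' : (x : F) ≠ 0 := fun h => hx0 (Subtype.ext h)
  have hex : ∃ m : ℕ, ∃ y ∈ I, y ≠ 0 ∧ ν (y : F) = m := by
    refine ⟨(ν (x : F)).toNat, x, hxI, hx0, ?_⟩
    have := (hν.mem_valuationSubring_of_ne_zero hx0').mp x.2
    omega
  obtain ⟨y, hyI, hy0, hym⟩ := Nat.find_spec hex
  have hy0' : (y : F) ≠ 0 := fun h => hy0 (Subtype.ext h)
  refine ⟨⟨y, ?_⟩⟩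
  apply le_antisymm
  · intro z hz
    rw [Submodule.mem_span_singleton]
    by_cases hz0 : z = 0
    · exact ⟨0, by rw [hz0, zero_smul]⟩
    have hz0' : (z : F) ≠ 0 := fun h => hz0 (Subtype.ext h)
    have hzv : 0 ≤ ν (z : F) := (hν.mem_valuationSubring_of_ne_zero hz0').mp z.2
    have hmin : Nat.find hex ≤ (ν (z : F)).toNat :=
      Nat.find_min' hex ⟨z, hz, hz0, by omega⟩
    have hq : (z : F) / (y : F) ∈ hν.valuationSubring := by
      rw [hν.mem_valuationSubring_of_ne_zero (div_ne_zero hz0' hy0'), hν.map_div _ _ hz0' hy0',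
        hym]
      omega
    refine ⟨⟨_, hq⟩, ?_⟩
    apply Subtype.ext
    show (z : F) / (y : F) * (y : F) = z
    exact div_mul_cancel₀ _ hy0'
  · rw [Submodule.span_le]
    intro z hz
    rw [Set.mem_singleton_iff.mp hz]
    exact hyI

/-- The place attached to a non-trivial order function. -/
def place (hnt : ∃ x : F, x ≠ 0 ∧ ν x ≠ 0) : Place K F where
  toValuationSubring := hν.valuationSubring
  algebraMap_mem' a := by
    by_cases ha : a = 0
    · left; rw [ha, _root_.map_zero]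
    · right; rw [hν.map_const a ha]
  ne_top' := by
    obtain ⟨x, hx0, hx⟩ := hnt
    intro htop
    have h1 : x ∈ hν.valuationSubring := htop ▸ ValuationSubring.mem_top x
    have h2 : x⁻¹ ∈ hν.valuationSubring := htop ▸ ValuationSubring.mem_top x⁻¹
    rw [hν.mem_valuationSubring_of_ne_zero hx0] at h1
    rw [hν.mem_valuationSubring_of_ne_zero (inv_ne_zero hx0), hν.map_inv x hx0] at h2
    omega
  isPrincipalIdealRing' := hν.isPrincipalIdealRing

/-- A unit of the valuation ring has value `0`. -/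
theorem map_unit (u : (hν.valuationSubring)ˣ) : ν ((u : hν.valuationSubring) : F) = 0 := by
  have hu0 : ((u : hν.valuationSubring) : F) ≠ 0 := by
    intro h
    exact u.ne_zero (Subtype.ext h)
  have hinv : (((u⁻¹ : (hν.valuationSubring)ˣ) : hν.valuationSubring) : F) =
      ((u : hν.valuationSubring) : F)⁻¹ := by
    have h := congrArg (Subtype.val : hν.valuationSubring → F) (Units.mul_inv u)
    exact eq_inv_of_mul_eq_one_right h
  have h1 := (hν.mem_valuationSubring_of_ne_zero hu0).mp (u : hν.valuationSubring).2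
  have h2 := (hν.mem_valuationSubring_of_ne_zero (by rw [hinv]; exact inv_ne_zero hu0)).mp
    ((u⁻¹ : (hν.valuationSubring)ˣ) : hν.valuationSubring).2
  rw [hinv, hν.map_inv _ hu0] at h2
  omega

/-- **TF-A.** If `n` divides the order of `f` at every place of `F / K`, then `n` divides
`ν f` for every order function `ν`. -/
theorem dvd_of_forall_place_dvd (n : ℤ) {f : F} (hf : f ≠ 0)
    (hdiv : ∀ v : Place K F, n ∣ v.ord f) : n ∣ ν f := by
  by_cases hnt : ∃ x : F, x ≠ 0 ∧ ν x ≠ 0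
  · obtain ⟨π, hπ⟩ := IsDiscreteValuationRing.exists_irreducible (hν.place hnt).toValuationSubring
    obtain ⟨u, hu⟩ := (hν.place hnt).exists_unit_mul_zpow hf hπ
    have hπ0 : (π : F) ≠ 0 := fun h => hπ.ne_zero (Subtype.ext h)
    have hu0 : ((u : (hν.place hnt).toValuationSubring) : F) ≠ 0 := fun h =>
      u.ne_zero (Subtype.ext h)
    have h1 : ν f = (hν.place hnt).ord f * ν (π : F) := by
      conv_lhs => rw [hu]
      rw [hν.map_mul _ _ hu0 (zpow_ne_zero _ hπ0), hν.map_zpow _ hπ0]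
      have : ν ((u : (hν.place hnt).toValuationSubring) : F) = 0 := hν.map_unit u
      rw [this, zero_add]
    rw [h1]
    exact Dvd.dvd.mul_right (hdiv _) _
  · push Not at hnt
    rw [hnt f hf]
    exact dvd_zero n

end IsOrdFun

/-- Composition of an order function with a homomorphism of fields over a homomorphism of the
constant fields. -/
theorem IsOrdFun.comp {K K' F F' : Type*} [Field K] [Field F] [Algebra K F]
    [Field K'] [Field F'] [Algebra K' F'] {ν : F' → ℤ} (hν : IsOrdFun K' ν)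
    (φ : F →+* F') (ι : K →+* K')
    (hφ : ∀ a : K, φ (algebraMap K F a) = algebraMap K' F' (ι a)) :
    IsOrdFun K (fun x => ν (φ x)) where
  map_mul x y hx hy := by
    simp only [_root_.map_mul]
    exact hν.map_mul _ _ ((map_ne_zero φ).mpr hx) ((map_ne_zero φ).mpr hy)
  map_add x y hx hy hxy := by
    simp only [_root_.map_add]
    refine hν.map_add _ _ ((map_ne_zero φ).mpr hx) ((map_ne_zero φ).mpr hy) ?_
    rw [← _root_.map_add]
    exact (map_ne_zero φ).mpr hxy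
  map_const a ha := by
    simp only [hφ]
    exact hν.map_const _ ((map_ne_zero ι).mpr ha)

end Fermat.Agent.F3TF
end
end MergeWrap_F3_TorsFin_PlaceOfVal

section MergeWrap_F3_TorsFin_OrdVal -- from F3/TorsFin/OrdVal.lean

set_option autoImplicit false

/-!
# (K2) TorsionFinite, piece TF-B: the analytic order at `τ ∈ ℍ` as an order function on `FC N`

For `x = f / g ∈ FC N` (a ratio of modular forms of equal weight on `Γ₀(N)`) put
`ordVal N τ x = ord_τ f - ord_τ g`.  This is an order function on `FC N / ℂ` in the sense of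
`PlaceOfVal.lean`.  Hence: if `n` divides the order of `x` at every place of `FC N`, then
`n ∣ ord_τ f - ord_τ g` for every `τ` (no dictionary "points → places" is needed).
-/

noncomputable section

namespace Fermat.Agent.F3TF

open UpperHalfPlane CongruenceSubgroup ModularCurve AlgebraicCurve
open scoped MatrixGroups ModularForm Manifold
open Fermat.Agent.S23 Fermat.Agent.F3I2
open Fermat.Agent.S28 Fermat.Agent.S28.QExp

variable {N : ℕ}

theorem mdiff_of_isMF {w : ℤ} {f : ℍ → ℂ} (hf : IsMF (G0 N) w f) : MDiff f := by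
  obtain ⟨F, rfl⟩ := hf
  exact F.holo'

/-- The order of a sum is at least the minimum of the orders. -/
theorem min_ordAt_le_ordAt_add {f g : ℍ → ℂ} (hf : MDiff f) (hg : MDiff g) (hf0 : f ≠ 0)
    (hg0 : g ≠ 0) (hfg : f + g ≠ 0) (τ : ℍ) :
    min (ordAt f τ) (ordAt g τ) ≤ ordAt (f + g) τ := by
  unfold ordAt
  have h1 : (f + g) ∘ ofComplex = (f ∘ ofComplex) + (g ∘ ofComplex) := rfl
  have hle : min (analyticOrderAt (f ∘ ofComplex) (τ : ℂ)) (analyticOrderAt (g ∘ ofComplex) (τ : ℂ))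
      ≤ analyticOrderAt ((f + g) ∘ ofComplex) (τ : ℂ) := by
    rw [h1]
    exact le_analyticOrderAt_add
  obtain ⟨a, ha⟩ := ENat.ne_top_iff_exists.mp (analyticOrderAt_ne_top_of_ne_zero hf hf0 τ)
  obtain ⟨b, hb⟩ := ENat.ne_top_iff_exists.mp (analyticOrderAt_ne_top_of_ne_zero hg hg0 τ)
  obtain ⟨c, hc⟩ := ENat.ne_top_iff_exists.mp
    (analyticOrderAt_ne_top_of_ne_zero (hf.add hg) hfg τ)
  rw [← ha, ← hb, ← hc] at hle
  rw [← ha, ← hb, ← hc]
  simp only [ENat.toNat_natCast]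
  have : min a b ≤ c := by
    rcases min_le_iff.mp hle with h | h
    · exact min_le_iff.mpr (Or.inl (by exact_mod_cast h))
    · exact min_le_iff.mpr (Or.inr (by exact_mod_cast h))
  omega

/-- Sum of two ratios. -/
theorem isRatioF_add {x x' : FC N} {f g f' g' : ℍ → ℂ} (h : IsRatioF N x f g)
    (h' : IsRatioF N x' f' g') : IsRatioF N (x + x') (f * g' + f' * g) (g * g') := by
  obtain ⟨hg, ⟨w, hfm, hgm⟩, h1⟩ := h
  obtain ⟨hg', ⟨w', hfm', hgm'⟩, h2⟩ := h'
  have m1 : IsMF (G0 N) (w + w') (f * g') := hfm.mul hgm'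
  have m2 : IsMF (G0 N) (w + w') (f' * g) := (hfm'.mul hgm).cast (add_comm _ _)
  refine ⟨isMF_mul_ne_zero hgm hgm' hg hg', ⟨w + w', m1.add m2, hgm.mul hgm'⟩, ?_⟩
  show dict1QF (f * g' + f' * g) = _
  rw [dict1QF_add m1 m2, dict1QF_mul hfm hgm', dict1QF_mul hfm' hgm]
  show qLaurent f * qLaurent g' + qLaurent f' * qLaurent g = _
  rw [qLaurent_mul_of_isMF hgm hgm', h1, h2]
  push_cast
  ring

/-- The constant `a` as a ratio. -/
theorem isRatioF_const (N : ℕ) (a : ℂ) :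
    IsRatioF N (algebraMap ℂ (FC N) a) (a • (1 : ℍ → ℂ)) 1 := by
  refine ⟨dict1_one_ne_zero, ⟨0, IsMF.one.smul a, IsMF.one⟩, ?_⟩
  show dict1QF (a • (1 : ℍ → ℂ)) = _ * dict1QF (1 : ℍ → ℂ)
  rw [dict1QF_one, mul_one]
  have h1 : HasQ (a • (1 : ℍ → ℂ)) (HahnSeries.C a) :=
    (hasQ_const a).congr fun τ => by simp
  have h2 := dict1_hasQ_of_isMF (N := N) (IsMF.one.smul a)
  rw [← h1.unique h2]
  show HahnSeries.C a = algebraMap ℂ (LaurentSeries ℂ) a
  rw [algebraMap_eq_single_zero]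
  rfl

section

variable [NeZero N]

open Classical in
/-- The analytic order of `x ∈ FC N` at `τ`. -/
def ordVal (N : ℕ) [NeZero N] (τ : ℍ) (x : FC N) : ℤ :=
  if hx : x = 0 then 0 else
    ordAt (exists_isRatioF_of_ne_zero hx).choose τ -
      ordAt (exists_isRatioF_of_ne_zero hx).choose_spec.choose τ

/-- `ordVal` may be computed from any ratio. -/
theorem ordVal_eq (τ : ℍ) {x : FC N} {f g : ℍ → ℂ} (hf : f ≠ 0) (h : IsRatioF N x f g) :
    ordVal N τ x = ordAt f τ - ordAt g τ := by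
  have hx : x ≠ 0 := fun hx => hf (h.eq_zero_iff.mp hx)
  unfold ordVal
  rw [dif_neg hx]
  obtain ⟨hf₀, h₀⟩ := (exists_isRatioF_of_ne_zero hx).choose_spec.choose_spec
  set f₀ := (exists_isRatioF_of_ne_zero hx).choose
  set g₀ := (exists_isRatioF_of_ne_zero hx).choose_spec.choose
  have hcross : f₀ * g = f * g₀ := h₀.cross h
  obtain ⟨hg, ⟨w, hfm, hgm⟩, -⟩ := h
  obtain ⟨hg₀, ⟨w₀, hfm₀, hgm₀⟩, -⟩ := h₀
  have e1 := ordAt_mul (mdiff_of_isMF hfm₀) (mdiff_of_isMF hgm) hf₀ hg τ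
  have e2 := ordAt_mul (mdiff_of_isMF hfm) (mdiff_of_isMF hgm₀) hf hg₀ τ
  rw [hcross] at e1
  rw [e1] at e2
  omega

theorem ordAt_const_smul_one {a : ℂ} (ha : a ≠ 0) (τ : ℍ) : ordAt (a • (1 : ℍ → ℂ)) τ = 0 := by
  unfold ordAt
  have h1 : (a • (1 : ℍ → ℂ)) ∘ ofComplex = fun _ => a := by
    funext z
    simp
  rw [h1]
  have : analyticOrderAt (fun _ : ℂ => a) (τ : ℂ) = 0 := by
    rw [(analyticAt_const).analyticOrderAt_eq_zero]
    exact ha
  rw [this]
  rfl

theorem ordAt_one (τ : ℍ) : ordAt (1 : ℍ → ℂ) τ = 0 := by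
  have := ordAt_const_smul_one (one_ne_zero : (1 : ℂ) ≠ 0) τ
  rwa [one_smul] at this

/-- **TF-B.** The analytic order at `τ` is an order function on `FC N`. -/
theorem isOrdFun_ordVal (τ : ℍ) : IsOrdFun ℂ (ordVal N τ) where
  map_mul x y hx hy := by
    obtain ⟨f, g, hf, h⟩ := exists_isRatioF_of_ne_zero hx
    obtain ⟨f', g', hf', h'⟩ := exists_isRatioF_of_ne_zero hy
    have hm := h.mul h'
    have e1 := ordVal_eq τ hf h
    have e2 := ordVal_eq τ hf' h'
    obtain ⟨hg, ⟨w, hfm, hgm⟩, -⟩ := h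
    obtain ⟨hg', ⟨w', hfm', hgm'⟩, -⟩ := h'
    have hff' : f * f' ≠ 0 := isMF_mul_ne_zero hfm hfm' hf hf'
    rw [ordVal_eq τ hff' hm, e1, e2,
      ordAt_mul (mdiff_of_isMF hfm) (mdiff_of_isMF hfm') hf hf' τ,
      ordAt_mul (mdiff_of_isMF hgm) (mdiff_of_isMF hgm') hg hg' τ]
    ring
  map_add x y hx hy hxy := by
    obtain ⟨f, g, hf, h⟩ := exists_isRatioF_of_ne_zero hx
    obtain ⟨f', g', hf', h'⟩ := exists_isRatioF_of_ne_zero hy
    have ha := isRatioF_add h h'
    have hnum : f * g' + f' * g ≠ 0 := fun h0 => hxy (ha.eq_zero_iff.mpr h0)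
    rw [ordVal_eq τ hnum ha, ordVal_eq τ hf h, ordVal_eq τ hf' h']
    obtain ⟨hg, ⟨w, hfm, hgm⟩, -⟩ := h
    obtain ⟨hg', ⟨w', hfm', hgm'⟩, -⟩ := h'
    have m1 : MDiff (f * g') := (mdiff_of_isMF hfm).mul (mdiff_of_isMF hgm')
    have m2 : MDiff (f' * g) := (mdiff_of_isMF hfm').mul (mdiff_of_isMF hgm)
    have n1 : f * g' ≠ 0 := isMF_mul_ne_zero hfm hgm' hf hg'
    have n2 : f' * g ≠ 0 := isMF_mul_ne_zero hfm' hgm hf' hg
    have key := min_ordAt_le_ordAt_add m1 m2 n1 n2 hnum τ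
    rw [ordAt_mul (mdiff_of_isMF hfm) (mdiff_of_isMF hgm') hf hg' τ,
      ordAt_mul (mdiff_of_isMF hfm') (mdiff_of_isMF hgm) hf' hg τ] at key
    rw [ordAt_mul (mdiff_of_isMF hgm) (mdiff_of_isMF hgm') hg hg' τ]
    omega
  map_const a ha := by
    have hne : a • (1 : ℍ → ℂ) ≠ 0 := by
      intro h0
      have := congrFun h0 ⟨Complex.I, by simp⟩
      simp at this
      exact ha this
    rw [ordVal_eq τ hne (isRatioF_const N a), ordAt_const_smul_one ha, ordAt_one]
    rfl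

/-- If `n` divides the order of `x` at every place of `FC N`, then `n` divides
`ord_τ f - ord_τ g` for every ratio `x = f / g` and every `τ ∈ ℍ`. -/
theorem dvd_ordAt_sub_of_forall_place {n : ℤ} {x : FC N} {f g : ℍ → ℂ} (hf : f ≠ 0)
    (h : IsRatioF N x f g) (hdiv : ∀ v : Place ℂ (FC N), n ∣ v.ord x) (τ : ℍ) :
    n ∣ ordAt f τ - ordAt g τ := by
  have hx : x ≠ 0 := fun hx => hf (h.eq_zero_iff.mp hx)
  rw [← ordVal_eq τ hf h]
  exact (isOrdFun_ordVal τ).dvd_of_forall_place_dvd n hx hdiv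

end

end Fermat.Agent.F3TF
end
end MergeWrap_F3_TorsFin_OrdVal

section MergeWrap_F3_TorsFin_Exists -- from F3/TorsFin/Exists.lean

set_option autoImplicit false

/-!
# (K2) TorsionFinite, piece TF-C: every torsion class has a character (`λ` is defined everywhere)

If `x = f₀ / g₀ ∈ FC N` and `n ∣ ord_τ f₀ - ord_τ g₀` for all `τ ∈ ℍ`, then
`f₀ g₀ ^ (n - 1) = h ^ n` for a holomorphic `h` (ROOT), `h` has a character `χ` with `χ ^ n = 1`
(CHAR), `h` is a form with character `χ`, and `x = h ^ n / g₀ ^ n`.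
In particular every `c ∈ Pic0 (FC N)` killed by `n` satisfies `IsTheta N n χ c` for some `χ`.
-/

noncomputable section

namespace Fermat.Agent.F3TF

open UpperHalfPlane CongruenceSubgroup ModularCurve AlgebraicCurve
open scoped MatrixGroups ModularForm Manifold
open Fermat.Agent.S23 Fermat.Agent.F3I2

variable {N : ℕ}

/-- A function whose `n`-th power is bounded at `i∞` is bounded at `i∞`. -/
theorem isBoundedAtImInfty_of_pow {F : ℍ → ℂ} {n : ℕ} (hn : n ≠ 0)
    (h : IsBoundedAtImInfty (F ^ n)) : IsBoundedAtImInfty F := by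
  rw [isBoundedAtImInfty_iff] at h ⊢
  obtain ⟨M, A, hMA⟩ := h
  refine ⟨max M 1, A, fun z hz => ?_⟩
  have h1 := hMA z hz
  simp only [Pi.pow_apply, norm_pow] at h1
  by_cases h2 : ‖F z‖ ≤ 1
  · exact le_trans h2 (le_max_right _ _)
  · push Not at h2
    have h3 : ‖F z‖ ≤ ‖F z‖ ^ n := le_self_pow₀ h2.le hn
    exact le_trans (le_trans h3 h1) (le_max_left _ _)

/-- A holomorphic function with a character whose `n`-th power is a modular form is a form with
character. -/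
theorem isFormChar_of_pow [NeZero N] {n : ℕ} (hn : n ≠ 0) {w : ℤ} {h : ℍ → ℂ}
    {χ : ↥(Gamma0 N) →* ℂˣ} (hh : MDiff h)
    (hslash : ∀ γ : ↥(Gamma0 N), h ∣[w] (γ : SL(2, ℤ)) = ((χ γ : ℂˣ) : ℂ) • h)
    (hpow : IsMF (G0 N) ((n : ℤ) * w) (h ^ n)) : IsFormChar N w χ h := by
  refine ⟨hh, hslash, fun g => ?_⟩
  apply isBoundedAtImInfty_of_pow hn
  rw [← pow_slash_SL2]
  exact (isFormChar_of_isMF hpow).bdd g

/-- **ROOT + CHAR.** -/
theorem exists_formChar_root [NeZero N] {n : ℕ} (hn : n ≠ 0) {x : FC N} {f₀ g₀ : ℍ → ℂ}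
    (hf₀ : f₀ ≠ 0) (h₀ : IsRatioF N x f₀ g₀)
    (hord : ∀ τ : ℍ, (n : ℤ) ∣ ordAt f₀ τ - ordAt g₀ τ) :
    ∃ (w : ℤ) (h B : ℍ → ℂ) (χ : ↥(Gamma0 N) →* ℂˣ), (∀ γ, χ γ ^ n = 1) ∧
      IsFormChar N w χ h ∧ IsFormChar N w 1 B ∧ h ≠ 0 ∧ B ≠ 0 ∧
      IsRatioF N x (h ^ n) (B ^ n) := by
  have hh₀ := h₀
  obtain ⟨hg₀, ⟨w, hfm, hgm⟩, -⟩ := h₀
  have hn1 : 1 ≤ n := Nat.one_le_iff_ne_zero.mpr hn
  have hpowm : IsMF (G0 N) (w * ((n - 1 : ℕ) : ℤ)) (g₀ ^ (n - 1)) := hgm.pow (n - 1)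
  have hpow0 : g₀ ^ (n - 1) ≠ 0 := isMF_pow_ne_zero hgm hg₀ (n - 1)
  set G : ℍ → ℂ := f₀ * g₀ ^ (n - 1) with hG
  have hcast : w + w * ((n - 1 : ℕ) : ℤ) = (n : ℤ) * w := by
    have : ((n - 1 : ℕ) : ℤ) = (n : ℤ) - 1 := by omega
    rw [this]; ring
  have hGm : IsMF (G0 N) ((n : ℤ) * w) G := (hfm.mul hpowm).cast hcast
  have hG0 : G ≠ 0 := isMF_mul_ne_zero hfm hpowm hf₀ hpow0
  have hGd : MDiff G := mdiff_of_isMF hGm
  -- the orders of `G` are divisible by `n`
  have hordG : ∀ τ : ℍ, ∃ m : ℕ, analyticOrderAt (G ∘ ofComplex) (τ : ℂ) = ((n * m : ℕ) : ℕ∞) := by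
    intro τ
    have e1 : ordAt G τ = ordAt f₀ τ + ((n - 1 : ℕ) : ℤ) * ordAt g₀ τ := by
      rw [hG, ordAt_mul (mdiff_of_isMF hfm) (mdiff_of_isMF hpowm) hf₀ hpow0 τ,
        ordAt_pow (mdiff_of_isMF hgm) hg₀]
    have e2 : (n : ℤ) ∣ ordAt G τ := by
      have : ordAt G τ = (ordAt f₀ τ - ordAt g₀ τ) + (n : ℤ) * ordAt g₀ τ := by
        rw [e1]
        have : ((n - 1 : ℕ) : ℤ) = (n : ℤ) - 1 := by omega
        rw [this]; ring
      rw [this]
      exact dvd_add (hord τ) (dvd_mul_right _ _)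
    obtain ⟨k, hk⟩ := ENat.ne_top_iff_exists.mp (analyticOrderAt_ne_top_of_ne_zero hGd hG0 τ)
    have e3 : ordAt G τ = (k : ℤ) := by
      unfold ordAt
      rw [← hk]
      simp
    rw [e3] at e2
    obtain ⟨m, hm⟩ := Int.natCast_dvd_natCast.mp e2
    exact ⟨m, by rw [← hk, hm]⟩
  obtain ⟨h, hhd, hhp⟩ := exists_mdiff_root hGd hn hordG
  have hhG : h ^ n = G := funext fun τ => by simpa using hhp τ
  have hh0 : h ≠ 0 := by
    intro h0
    apply hG0
    rw [← hhG, h0, zero_pow hn]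
  have hinv : ∀ γ : ↥(Gamma0 N), (h ^ n) ∣[(n : ℤ) * w] (γ : SL(2, ℤ)) = h ^ n := by
    intro γ
    rw [hhG]
    have := (isFormChar_of_isMF hGm).slash γ
    simpa using this
  obtain ⟨χ, hχ, hslash⟩ := exists_character_of_pow_slash hn hhd hh0 hinv
  have hhF : IsFormChar N w χ h := isFormChar_of_pow hn hhd hslash (hhG ▸ hGm)
  refine ⟨w, h, g₀, χ, hχ, hhF, isFormChar_of_isMF hgm, hh0, hg₀, ?_⟩
  have hgn : IsMF (G0 N) ((n : ℤ) * w) (g₀ ^ n) := (hgm.pow n).cast (mul_comm _ _)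
  refine hh₀.congr (isMF_pow_ne_zero hgm hg₀ n) (hhG ▸ hGm) hgn ?_
  rw [hhG, hG]
  have : g₀ ^ n = g₀ ^ (n - 1) * g₀ := by
    rw [← pow_succ, Nat.sub_add_cancel hn1]
  rw [this]
  ring

/-- **`λ` is defined everywhere (over `ℂ`).**  Every class of `Pic0 (FC N)` killed by `n` is the
class attached to a character of order dividing `n`. -/
theorem exists_isTheta_of_torsion [NeZero N] {n : ℕ} (hn : n ≠ 0) (c : Pic0 ℂ (FC N))
    (hc : n • c = 0) : ∃ χ : ↥(Gamma0 N) →* ℂˣ, IsTheta N n χ c := by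
  have hc' : (n : ℤ) • c = 0 := by rw [natCast_zsmul]; exact hc
  obtain ⟨D, x, hD, hDc⟩ := exists_isRootDiv_of_torsion n c hc'
  obtain ⟨f₀, g₀, hf₀, h₀⟩ := exists_isRatioF_of_ne_zero hD.1
  have hdiv : ∀ v : Place ℂ (FC N), (n : ℤ) ∣ v.ord x := fun v => ⟨_, (hD.2 v).symm⟩
  obtain ⟨w, h, B, χ, hχ, hh, hB, hh0, hB0, hr⟩ := exists_formChar_root hn hf₀ h₀
    (fun τ => dvd_ordAt_sub_of_forall_place hf₀ h₀ hdiv τ)
  exact ⟨χ, hχ, w, h, B, x, D, hh, hB, hh0, hB0, hr, hD, hDc⟩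

end Fermat.Agent.F3TF
end
end MergeWrap_F3_TorsFin_Exists
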