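import Fermat.Agent.MUL.F3.TorsFin.Exists
import Fermat.Agent.MUL.Orig.S22.GammaFG
import Fermat.Agent.MUL.Lib.HeckeInputs.Modular

section MergeWrap_F3_TorsFin_CharFinite -- from F3/TorsFin/CharFinite.lean

set_option autoImplicit false
set_option linter.style.haveILetI false

/-!
# (K2) TorsionFinite, piece TF-F: finitely many characters; finiteness of `Pic0 (FC N)[n]`
-/

noncomputable section

namespace Fermat.Agent.F3TF

open UpperHalfPlane CongruenceSubgroup ModularCurve AlgebraicCurve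
open scoped MatrixGroups ModularForm Manifold
open Fermat.Agent.S23 Fermat.Agent.F3I2

/-- A finitely generated group has finitely many characters of exponent `n`. -/
theorem finite_characters {Γ : Type*} [Group Γ] [Group.FG Γ] {n : ℕ} (hn : n ≠ 0) :
    Finite {χ : Γ →* ℂˣ // ∀ γ, χ γ ^ n = 1} := by
  classical
  haveI : NeZero n := ⟨hn⟩
  obtain ⟨S, hS⟩ := (Group.fg_def (G := Γ)).mp inferInstance
  let Φ : {χ : Γ →* ℂˣ // ∀ γ, χ γ ^ n = 1} → (S → rootsOfUnity n ℂ) :=
    fun χ s => ⟨χ.1 s, (mem_rootsOfUnity n _).mpr (χ.2 s)⟩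
  have hΦ : Function.Injective Φ := by
    intro χ χ' h
    apply Subtype.ext
    apply MonoidHom.eq_of_eqOn_dense hS
    intro s hs
    have := congrFun h ⟨s, hs⟩
    exact congrArg Subtype.val this
  exact Finite.of_injective Φ hΦ

variable {N : ℕ} [NeZero N]

/-- **Finiteness of the `n`-torsion of `Pic0 (FC N)`** (`λ` is injective). -/
theorem finite_torsion_FC {n : ℕ} (hn : n ≠ 0) : {c : Pic0 ℂ (FC N) | n • c = 0}.Finite := by
  classical
  haveI : Group.FG ↥(Gamma0 N) := Fermat.Agent.S22.fg_Gamma0 N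
  haveI := finite_characters (Γ := ↥(Gamma0 N)) hn
  have hex : ∀ c : {c : Pic0 ℂ (FC N) // n • c = 0},
      ∃ χ : ↥(Gamma0 N) →* ℂˣ, IsTheta N n χ c.1 := fun c =>
    exists_isTheta_of_torsion hn c.1 c.2
  choose χ hχ using hex
  let Φ : {c : Pic0 ℂ (FC N) // n • c = 0} → {χ : ↥(Gamma0 N) →* ℂˣ // ∀ γ, χ γ ^ n = 1} :=
    fun c => ⟨χ c, (hχ c).1⟩
  have hΦ : Function.Injective Φ := by
    intro c c' h
    apply Subtype.ext
    have h1 : χ c = χ c' := congrArg Subtype.val h
    have h2 := hχ c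
    rw [h1] at h2
    exact h2.unique hn (hχ c')
  have hfin : Finite ↑{c : Pic0 ℂ (FC N) | n • c = 0} := Finite.of_injective Φ hΦ
  exact Set.finite_coe_iff.mp hfin

end Fermat.Agent.F3TF
end
end MergeWrap_F3_TorsFin_CharFinite
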